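import Fermat.Agent.Local.Torsion
import Mathlib.NumberTheory.Padics.PadicNumbers

/-!
# The Nagell–Lutz theorem

A rational torsion point `(x, y)` of `y² = x³ + a x + b` with integral `a, b` has integral
coordinates, and `y = 0` or `y²` divides `4 a³ + 27 b²`. A point of odd prime order `p` with
non-integral abscissa is impossible because the division polynomial has leading coefficient `p`
and the abscissa a denominator at least the square of the prime.
-/

set_option autoImplicit false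
set_option linter.style.haveILetI false

noncomputable section

open WeierstrassCurve Polynomial FA.Local

namespace FA.NagellLutz

variable {Γ : Type*} [LinearOrderedCommGroupWithZero Γ]

/-- A polynomial with integral coefficients does not vanish at `x` when the leading term
dominates. -/
theorem eval_ne_zero_of_dominant {L : Type*} [Field L] {v : Valuation L Γ} {P : L[X]} {x : L}
    (hc : ∀ k, v (P.coeff k) ≤ 1) (hx : 1 < v x) (hlx : 1 < v P.leadingCoeff * v x) :
    P.eval x ≠ 0 := by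
  intro h0
  have hx0 : 0 < v x := zero_lt_one.trans hx
  have hl : 0 < v P.leadingCoeff := by
    refine zero_lt_iff.mpr fun e => ?_
    rw [e, zero_mul] at hlx
    exact not_lt_zero hlx
  have h : v (P.eval x) = v P.leadingCoeff * v x ^ P.natDegree := by
    rw [eval_eq_sum_range, Finset.sum_range_succ, v.map_add_eq_of_lt_right] <;>
      rw [map_mul (f := v) (P.coeff P.natDegree), map_pow, ← leadingCoeff]
    refine v.map_sum_lt (mul_ne_zero hl.ne' (pow_ne_zero _ hx0.ne')) fun i hi => ?_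
    rw [map_mul, map_pow]
    refine (mul_le_of_le_one_left' (hc i)).trans_lt ?_
    have hle : v x * v x ^ i ≤ v x ^ P.natDegree := by
      rw [← pow_succ']
      exact pow_le_pow_right₀ hx.le (Finset.mem_range.mp hi)
    calc v x ^ i = 1 * v x ^ i := (one_mul _).symm
      _ < v P.leadingCoeff * v x * v x ^ i := (mul_lt_mul_iff_left₀ (pow_pos hx0 i)).mpr hlx
      _ ≤ v P.leadingCoeff * v x ^ P.natDegree := by
          rw [mul_assoc]; exact mul_le_mul_right hle _
  rw [h0, map_zero] at h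
  exact mul_ne_zero hl.ne' (pow_ne_zero _ hx0.ne') h.symm

variable {q : ℕ} [hq : Fact q.Prime] {W : Affine ℚ}

/-- A non-integral abscissa has a denominator divisible by `q²`. -/
theorem one_lt_prime_mul (hI : IntCoeff (Rat.padicValuation q) W) {x y : ℚ} (h : W.Equation x y)
    (hx : 1 < Rat.padicValuation q x) {n : ℕ} (hn : n.Prime) :
    1 < Rat.padicValuation q (n : ℚ) * Rat.padicValuation q x := by
  have hn1 : Rat.padicValuation q (n : ℚ) = WithZero.exp (-1) ∨
      Rat.padicValuation q (n : ℚ) = 1 := by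
    by_cases h' : q = n
    · exact Or.inl (h' ▸ Rat.padicValuation_self q)
    · refine Or.inr ?_
      rw [← Int.cast_natCast, Rat.padicValuation_cast, Int.padicValuation_eq_one_iff,
        Int.natCast_dvd_natCast, Nat.prime_dvd_prime_iff_eq hq.out hn]
      exact h'
  rcases hn1 with e | e <;> rw [e]
  swap; · rwa [one_mul]
  have hx0 : Rat.padicValuation q x ≠ 0 := (zero_lt_one.trans hx).ne'
  obtain ⟨hyx, h2⟩ := large_of_one_lt hI h hx
  have hy0 : Rat.padicValuation q y ≠ 0 := (zero_le.trans_lt hyx).ne'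
  obtain ⟨i, hi⟩ : ∃ i, Rat.padicValuation q x = WithZero.exp i :=
    ⟨_, (WithZero.exp_log hx0).symm⟩
  obtain ⟨j, hj⟩ : ∃ j, Rat.padicValuation q y = WithZero.exp j :=
    ⟨_, (WithZero.exp_log hy0).symm⟩
  rw [hi, hj, ← WithZero.exp_nsmul, ← WithZero.exp_nsmul, WithZero.exp_inj] at h2
  rw [hi, ← WithZero.exp_zero, WithZero.exp_lt_exp] at hx
  rw [hi, ← WithZero.exp_add, ← WithZero.exp_zero, WithZero.exp_lt_exp]
  simp only [nsmul_eq_mul, Nat.cast_ofNat] at h2
  omega

/-- The kernel of reduction at `q` has no point of odd prime order. -/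
theorem eq_zero_of_e1_of_odd [WeierstrassCurve.IsElliptic W]
    (hI : IntCoeff (Rat.padicValuation q) W) {p : ℕ} (hp : p.Prime) (hodd : Odd p) {P : W.Point}
    (hP : E1 (Rat.padicValuation q) W P) (hpP : p • P = 0) : P = 0 := by
  rcases P with _ | ⟨x, y, h⟩
  · rfl
  exfalso
  rw [eval_preΨ'_eq_zero_iff hodd h] at hpP
  rw [e1_some] at hP
  refine eval_ne_zero_of_dominant (coeff_preΨ'_le_one hI p) hP ?_ hpP
  rw [W.leadingCoeff_preΨ' (Nat.cast_ne_zero.mpr hp.ne_zero),
    if_neg (Nat.not_even_iff_odd.mpr hodd)]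
  exact one_lt_prime_mul hI h.1 hP hp

/-- The curve `y² = x³ + a x + b`. -/
abbrev shortW (a b : ℤ) : Affine ℚ := (⟨0, 0, 0, (a : ℚ), (b : ℚ)⟩ : WeierstrassCurve ℚ).toAffine

theorem intCoeff_shortW (a b : ℤ) : IntCoeff (Rat.padicValuation q) (shortW a b) where
  h₁ := by simp
  h₂ := by simp
  h₃ := by simp
  h₄ := intCast_le_one a
  h₆ := intCast_le_one b

/-- The kernel of reduction at `q` has no torsion. -/
theorem not_e1_of_isOfFinAddOrder {a b : ℤ} [WeierstrassCurve.IsElliptic (shortW a b)]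
    {P : (shortW a b).Point} (hP : IsOfFinAddOrder P) (hne : P ≠ 0) :
    ¬ E1 (Rat.padicValuation q) (shortW a b) P := by
  intro h1
  set n := addOrderOf P with hn
  have hn0 : n ≠ 0 := hP.addOrderOf_pos.ne'
  have hn1 : n ≠ 1 := fun h => hne (AddMonoid.addOrderOf_eq_one_iff.mp h)
  have hl := Nat.minFac_prime hn1
  have hd := Nat.minFac_dvd n
  set Q := (n / n.minFac) • P with hQdef
  have hQ : addOrderOf Q = n.minFac := by
    rw [hQdef, addOrderOf_nsmul_of_dvd (fun h => hn0 (by
      have := Nat.div_mul_cancel hd; rw [h, zero_mul] at this; exact this.symm))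
      (Nat.div_dvd_of_dvd hd), ← hn, Nat.div_div_self hd hn0]
  have hQ1 : E1 (Rat.padicValuation q) (shortW a b) Q := e1_nsmul (intCoeff_shortW a b) h1 _
  have hQ0 : n.minFac • Q = 0 := by
    have := addOrderOf_nsmul_eq_zero Q
    rwa [hQ] at this
  have hQne : Q ≠ 0 := fun e => hl.one_lt.ne (by rw [← hQ, e, addOrderOf_zero])
  rcases hl.eq_two_or_odd' with h2 | hodd
  · rcases hc : Q with _ | ⟨x, y, h⟩
    · exact hQne hc
    · rw [hc, e1_some] at hQ1
      rw [h2, hc, two_nsmul] at hQ0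
      by_cases hy : y = (shortW a b).negY x y
      · have hy0 : y = 0 := by simp [Affine.negY] at hy; linarith
        obtain ⟨hyx, -⟩ := large_of_one_lt (intCoeff_shortW a b) h.1 hQ1
        rw [hy0, map_zero] at hyx
        exact not_lt_zero hyx
      · rw [Affine.Point.add_some fun hh => hy hh.2] at hQ0
        exact Affine.Point.some_ne_zero _ hQ0
  · exact hQne (eq_zero_of_e1_of_odd (intCoeff_shortW a b) hl hodd hQ1 hQ0)

omit hq in
theorem exists_intCast {z : ℚ}
    (h : ∀ (p : ℕ) [Fact p.Prime], Rat.padicValuation p z ≤ 1) : ∃ Z : ℤ, z = Z := by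
  refine ⟨z.num, ((Rat.den_eq_one_iff z).mp ?_).symm⟩
  by_contra hd
  haveI : Fact z.den.minFac.Prime := ⟨Nat.minFac_prime hd⟩
  exact Rat.padicValuation_le_one_iff.mp (h z.den.minFac) (Nat.minFac_dvd _)

omit hq in
/-- Torsion points have integral coordinates. -/
theorem integral_of_isOfFinAddOrder {a b : ℤ} [WeierstrassCurve.IsElliptic (shortW a b)] {x y : ℚ}
    {h : (shortW a b).Nonsingular x y} (hP : IsOfFinAddOrder (Affine.Point.some x y h)) :
    ∃ X Y : ℤ, x = X ∧ y = Y := by
  have hx : ∀ (p : ℕ) [Fact p.Prime], Rat.padicValuation p x ≤ 1 := fun p _ =>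
    not_lt.mp fun hlt => not_e1_of_isOfFinAddOrder hP (Affine.Point.some_ne_zero h) hlt
  obtain ⟨X, hX⟩ := exists_intCast hx
  obtain ⟨Y, hY⟩ := exists_intCast fun p _ => le_y_of_le_x (intCoeff_shortW a b) h.1 (hx p)
  exact ⟨X, Y, hX, hY⟩

end FA.NagellLutz

namespace FA.Summary

open FA.NagellLutz

/-- **The Nagell–Lutz theorem**: a rational torsion point of `y² = x³ + a x + b`, with integers
`a, b` and `4 a³ + 27 b² ≠ 0`, has integral coordinates `(X, Y)` with `Y = 0` or
`Y² ∣ 4 a³ + 27 b²`. -/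
theorem nagell_lutz (a b : ℤ) (hD : 4 * a ^ 3 + 27 * b ^ 2 ≠ 0) {x y : ℚ}
    {h : (⟨0, 0, 0, (a : ℚ), (b : ℚ)⟩ : WeierstrassCurve ℚ).toAffine.Nonsingular x y}
    (hP : IsOfFinAddOrder (Affine.Point.some x y h)) :
    ∃ X Y : ℤ, x = X ∧ y = Y ∧ (Y = 0 ∨ Y ^ 2 ∣ 4 * a ^ 3 + 27 * b ^ 2) := by
  haveI : WeierstrassCurve.IsElliptic (shortW a b) := by
    refine ⟨isUnit_iff_ne_zero.mpr ?_⟩
    rw [show (shortW a b).Δ = -16 * ((4 * a ^ 3 + 27 * b ^ 2 : ℤ) : ℚ) by
      simp [WeierstrassCurve.Δ, WeierstrassCurve.b₂, WeierstrassCurve.b₄,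
        WeierstrassCurve.b₆, WeierstrassCurve.b₈]
      ring]
    exact mul_ne_zero (by norm_num) (Int.cast_ne_zero.mpr hD)
  obtain ⟨X, Y, hX, hY⟩ := integral_of_isOfFinAddOrder hP
  refine ⟨X, Y, hX, hY, ?_⟩
  by_cases hY0 : Y = 0
  · exact Or.inl hY0
  right
  have hy0 : y ≠ 0 := by rw [hY]; exact_mod_cast hY0
  have hne : y ≠ (shortW a b).negY x y := by
    simp only [Affine.negY]
    intro e
    exact hy0 (by linarith)
  have hs : (shortW a b).slope x x y y = (3 * x ^ 2 + a) / (2 * y) := by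
    rw [Affine.slope_of_Y_ne rfl hne]
    simp [Affine.negY]
    ring
  have hd := Affine.Point.add_self_of_Y_ne (h₁ := h) hne
  obtain ⟨X₂, Y₂, hX₂, -⟩ := integral_of_isOfFinAddOrder
    (hd ▸ (hP.add hP : IsOfFinAddOrder (Affine.Point.some x y h + Affine.Point.some x y h)))
  obtain ⟨M, hM⟩ : ∃ M : ℤ, (3 * x ^ 2 + a) / (2 * y) = M := by
    have hsq : ((3 * x ^ 2 + a) / (2 * y)) ^ 2 = ((X₂ + 2 * X : ℤ) : ℚ) := by
      rw [Affine.addX, hs] at hX₂
      push_cast
      rw [← hX₂, hX]
      simp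
      ring
    refine ⟨((3 * x ^ 2 + a) / (2 * y)).num, ((Rat.den_eq_one_iff _).mp ?_).symm⟩
    have := congrArg Rat.den hsq
    rw [Rat.den_pow, Rat.den_intCast] at this
    exact (pow_eq_one_iff.mp this).resolve_right two_ne_zero
  have e1 : 3 * X ^ 2 + a = M * (2 * Y) := by
    have : 3 * x ^ 2 + (a : ℚ) = M * (2 * y) := (div_eq_iff (mul_ne_zero two_ne_zero hy0)).mp hM
    rw [hX, hY] at this
    exact_mod_cast this
  have e2 : Y ^ 2 = X ^ 3 + a * X + b := by
    have : y ^ 2 = x ^ 3 + (a : ℚ) * x + b := by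
      simpa [shortW] using (Affine.equation_iff x y).mp h.1
    rw [hX, hY] at this
    exact_mod_cast this
  exact ⟨(3 * X ^ 2 + 4 * a) * (2 * M) ^ 2 - 27 * (X ^ 3 + a * X - b), by
    linear_combination ((3 * X ^ 2 + 4 * a) * (3 * X ^ 2 + a + M * (2 * Y))) * e1
      + 27 * (X ^ 3 + a * X - b) * e2⟩

end FA.Summary

end
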